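import Fermat.Agent.S36.H890.RegMid9
import Fermat.Agent.S36.Mod3.H356.RegU
import Fermat.Agent.S36.Mod3.H839.UniqAbs
import Fermat.Agent.S36.H876.LiteSelf

/-!
# S36 / MOD3, leaf REG, finite chart, case `9 ∣ M` (`q = 2`): Leaf-level wiring (helper890)

* `LeafResJ`  : piece (R-RES) as a leaf-shaped `Prop`: the conclusion of helper922's
  `h922_hres_mid` VERBATIM at `M₁ = M q`, `hqM = dvd_mul_left q M`, `V = V₂`
  (`U_m = αE (dE) * (βE (dE))⁻¹`, `dE` of helper438);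
* `LeafRegF9` : `9 ∣ M → ∀ 𝔪 maximal, Through 𝔪 V₂ → PrincipalAt (chart R {x3E}) 𝔪 V₂`
  (the middle disjunct of `PartReg.regular_f` at EVERY closed point of the middle component);
* `leafRegF9_of : LeafSheet → LeafVal → LeafQep → H356.LeafRegU → LeafResJ → LeafRegF9`;
* `LeafRegI2`, `leafRegI2_of : LeafSheet → LeafVal → LeafQep → LeafInc → LeafRegI2` : the chart at
  infinity for `q = 2` (`e₂ = q - 1 = 1`: `w` is a uniformiser of `V₂`, and the cusps of the middle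
  component lie on no other component, so `H876.principalAt_lite` applies with `x = w`,
  `g₁ = g₂ = 1`; NO congruence needed);
* `LeafReg2` (`q = 2 → PartReg`), `leafReg2_of`; `LeafRegOdd` (`q ≠ 2 → PartReg`);
  `leafReg_of_two_odd : LeafReg2 → LeafRegOdd → LeafReg`.

Under `Std` the hypothesis `9 ∣ M` is `hStd.neat.2.2 (h : q = 2)`.
-/

set_option autoImplicit false
set_option linter.style.haveILetI false
set_option linter.unusedSectionVars false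
set_option synthInstance.maxHeartbeats 400000
set_option maxHeartbeats 1600000

noncomputable section

namespace Fermat.Agent.S36.Mod3.H890

open ModularCurve
open Fermat.Agent.S18.H138 (chart)
open Fermat.Agent.S36.Eng Fermat.Agent.S36.Mod3

/-- **(R-RES), leaf-shaped**: the residue of `π ^ (12 (q - 1)) / U_m` along the middle component,
`π = j_{q²} - j`; the conclusion of `h922_hres_mid` at `M₁ = M q`, `V = V₂`. -/
def LeafResJ : Prop :=
  Leaf fun _ E M q _ _ _ _ _ _ _ V₂ _ =>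
    ((A2.Mod.βE E (M * q) q (A2.Mod.jE E (M * q) q (dvd_mul_left q M))
          - A2.Mod.αE E (M * q) q (A2.Mod.jE E (M * q) 1 (one_dvd _))) ^ (12 * (q - 1))
        - A2.Mod.αE E (M * q) q ((A2.Mod.jE E (M * q) 1 (one_dvd _) ^ 4
            * (A2.Mod.jE E (M * q) 1 (one_dvd _) - 1728) ^ 3) ^ (2 * (q - 1)))
          * (A2.Mod.αE E (M * q) q (Fermat.Agent.S36.H438.dE E (M * q) q (dvd_mul_left q M))
            * (A2.Mod.βE E (M * q) q
                (Fermat.Agent.S36.H438.dE E (M * q) q (dvd_mul_left q M)))⁻¹))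
      * (A2.Mod.αE E (M * q) q (Fermat.Agent.S36.H438.dE E (M * q) q (dvd_mul_left q M))
            * (A2.Mod.βE E (M * q) q
                (Fermat.Agent.S36.H438.dE E (M * q) q (dvd_mul_left q M)))⁻¹)⁻¹
      ∈ V₂.nonunits

/-- **REG, finite chart, `9 ∣ M`** (leaf-shaped). -/
def LeafRegF9 : Prop :=
  Leaf fun P E M q _ _ _ _ _ _ _ V₂ _ =>
    9 ∣ M → ∀ 𝔪 : Ideal (chart (A2.RE P E) ({x3E E M q} : Set (A2.Mod.FE E (M * q * q)))),
      𝔪.IsMaximal → Through _ 𝔪 V₂ → PrincipalAt _ 𝔪 V₂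

/-- **REG, finite chart, `9 ∣ M`**: from the leaves on main, (R-U) and (R-RES). -/
theorem leafRegF9_of (hSheet : LeafSheet) (hVal : LeafVal) (hQep : LeafQep)
    (hRU : H356.LeafRegU) (hRes : LeafResJ) : LeafRegF9 := by
  intro P E M q _ _ _ w hStd V₁' V₂' V₁ V₂ V₃ W' W hO h9 𝔪 h𝔪 hthr
  have hS := hSheet P E M q w hStd V₁' V₂' V₁ V₂ V₃ W' W hO
  have hV := hVal P E M q w hStd V₁' V₂' V₁ V₂ V₃ W' W hO
  have hQ := (hQep P E M q w hStd V₁' V₂' V₁ V₂ V₃ W' W hO).qep_f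
  have hU := hRU P E M q w hStd V₁' V₂' V₁ V₂ V₃ W' W hO
  have hR := hRes P E M q w hStd V₁' V₂' V₁ V₂ V₃ W' W hO
  obtain ⟨t, ht, -⟩ := hV.ram₂
  have hB₁ : ∀ b : chart (A2.RE P E) ({x3E E M q} : Set (A2.Mod.FE E (M * q * q))),
      (b : A2.Mod.FE E (M * q * q)) ∈ V₁ := fun b =>
    Mod3.H839.mem_valuationSubring_of_mem_chart839 V₁ hS.base₁
      (fun s hs => by rw [Set.mem_singleton_iff.1 hs]; exact hV.x_unit₁.2.1) b.2
  have hB₂ : ∀ b : chart (A2.RE P E) ({x3E E M q} : Set (A2.Mod.FE E (M * q * q))),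
      (b : A2.Mod.FE E (M * q * q)) ∈ V₂ := fun b =>
    Mod3.H839.mem_valuationSubring_of_mem_chart839 V₂ hS.base₂
      (fun s hs => by rw [Set.mem_singleton_iff.1 hs]; exact hV.x_unit₂.2.1) b.2
  have hB₃ : ∀ b : chart (A2.RE P E) ({x3E E M q} : Set (A2.Mod.FE E (M * q * q))),
      (b : A2.Mod.FE E (M * q * q)) ∈ V₃ := fun b =>
    Mod3.H839.mem_valuationSubring_of_mem_chart839 V₃ hS.base₃
      (fun s hs => by rw [Set.mem_singleton_iff.1 hs]; exact hV.x_unit₃.2.1) b.2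
  exact Fermat.Agent.S36.H890.principalAt_mid_t9_conc hStd hO h9 hB₁ hB₂ hB₃ hQ ⟨t, ht⟩
    (H356.Um E M q) 12 hU.exists_pair hU.unit₁ hU.unit₃ hU.val₂' (dvd_mul_left q M) hR
    𝔪 h𝔪 hthr

/-! ## The chart at infinity, `q = 2` -/

/-- `e = 1`: if `w / t` is a unit for a uniformiser `t`, then `w` is a uniformiser. -/
theorem unifAt_of_unitAt_div {F : Type*} [Field F] (V : ValuationSubring F) {w₀ t : F}
    (ht : UnifAt V t) (hw : UnitAt V (w₀ * t⁻¹)) : UnifAt V w₀ := by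
  obtain ⟨ht0, htV, htdiv⟩ := ht
  obtain ⟨hu0, huV, huinv⟩ := hw
  have hw0 : w₀ ≠ 0 := fun h => hu0 (by rw [h, zero_mul])
  have e1 : w₀ = t * (w₀ * t⁻¹) := by
    rw [mul_comm w₀, ← mul_assoc, mul_inv_cancel₀ ht0, one_mul]
  refine ⟨hw0, ?_, fun f hf => ?_⟩
  · rw [e1, ValuationSubring.mem_nonunits_iff, map_mul]
    exact mul_lt_one_of_lt_of_le ((V.mem_nonunits_iff).1 htV)
      ((V.valuation_le_one_iff _).2 huV)
  · have e2 : f * w₀⁻¹ = f * t⁻¹ * (w₀ * t⁻¹)⁻¹ := by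
      rw [mul_inv, inv_inv, mul_assoc, ← mul_assoc t⁻¹, mul_comm t⁻¹ w₀⁻¹, mul_assoc w₀⁻¹,
        inv_mul_cancel₀ ht0, mul_one]
    rw [e2]
    exact V.mul_mem _ _ (htdiv f hf) huinv

/-- **REG, chart at infinity, `q = 2`** (leaf-shaped). -/
def LeafRegI2 : Prop :=
  Leaf fun P E M q _ _ _ _ _ _ _ V₂ _ =>
    q = 2 → ∀ 𝔪 : Ideal (chart (A2.RE P E) ({(x3E E M q)⁻¹} : Set (A2.Mod.FE E (M * q * q)))),
      𝔪.IsMaximal →
      (⟨(x3E E M q)⁻¹, Fermat.Agent.S18.H138.mem_chart_of_mem rfl⟩ :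
        chart (A2.RE P E) ({(x3E E M q)⁻¹} : Set (A2.Mod.FE E (M * q * q)))) ∈ 𝔪 →
      Through _ 𝔪 V₂ → PrincipalAt _ 𝔪 V₂

/-- **REG, chart at infinity, `q = 2`**: from the leaves on main; no congruence. -/
theorem leafRegI2_of (hSheet : LeafSheet) (hVal : LeafVal) (hQep : LeafQep) (hInc : LeafInc) :
    LeafRegI2 := by
  intro P E M q _ _ _ w hStd V₁' V₂' V₁ V₂ V₃ W' W hO hq2 𝔪 h𝔪 hx hthr
  have hS := hSheet P E M q w hStd V₁' V₂' V₁ V₂ V₃ W' W hO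
  have hV := hVal P E M q w hStd V₁' V₂' V₁ V₂ V₃ W' W hO
  have hQ := (hQep P E M q w hStd V₁' V₂' V₁ V₂ V₃ W' W hO).qep_i
  have hI := hInc P E M q w hStd V₁' V₂' V₁ V₂ V₃ W' W hO
  -- `w` is a uniformiser of `V₂`
  obtain ⟨t, ht, hwt⟩ := hV.ram₂
  have e1 : q - 1 = 1 := by omega
  rw [e1, pow_one] at hwt
  have hw2 : UnifAt V₂ (algebraMap (A2.RE P E) (A2.Mod.FE E (M * q * q)) w) :=
    unifAt_of_unitAt_div V₂ ht hwt
  -- the cusp lies on the middle component only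
  have hwm : algebraMap (A2.RE P E)
      (chart (A2.RE P E) ({(x3E E M q)⁻¹} : Set (A2.Mod.FE E (M * q * q)))) w ∈ 𝔪 :=
    hthr _ hw2.2.1
  obtain ⟨h12, -, h23⟩ := hI.cusp_single 𝔪 h𝔪 hwm hx
  have hn₁ : ¬ Through _ 𝔪 V₁ := fun h => h12 ⟨h, hthr⟩
  have hn₃ : ¬ Through _ 𝔪 V₃ := fun h => h23 ⟨hthr, h⟩
  have hB₁ : ∀ b : chart (A2.RE P E) ({(x3E E M q)⁻¹} : Set (A2.Mod.FE E (M * q * q))),
      (b : A2.Mod.FE E (M * q * q)) ∈ V₁ := fun b =>
    Mod3.H839.mem_valuationSubring_of_mem_chart839 V₁ hS.base₁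
      (fun s hs => by rw [Set.mem_singleton_iff.1 hs]; exact hV.x_unit₁.2.2) b.2
  have hB₂ : ∀ b : chart (A2.RE P E) ({(x3E E M q)⁻¹} : Set (A2.Mod.FE E (M * q * q))),
      (b : A2.Mod.FE E (M * q * q)) ∈ V₂ := fun b =>
    Mod3.H839.mem_valuationSubring_of_mem_chart839 V₂ hS.base₂
      (fun s hs => by rw [Set.mem_singleton_iff.1 hs]; exact hV.x_unit₂.2.2) b.2
  have hB₃ : ∀ b : chart (A2.RE P E) ({(x3E E M q)⁻¹} : Set (A2.Mod.FE E (M * q * q))),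
      (b : A2.Mod.FE E (M * q * q)) ∈ V₃ := fun b =>
    Mod3.H839.mem_valuationSubring_of_mem_chart839 V₃ hS.base₃
      (fun s hs => by rw [Set.mem_singleton_iff.1 hs]; exact hV.x_unit₃.2.2) b.2
  refine Fermat.Agent.S36.H876.principalAt_lite w _ V₁ V₂ V₃ hB₁ hB₂ hB₃ hQ hV.unif₁ hV.unif₃
    𝔪 h𝔪.isPrime hthr hn₁ hn₃ (algebraMap (A2.RE P E) _ w) 1 1 1 1 one_pos hw2
    (fun h => h𝔪.ne_top ((Ideal.eq_top_iff_one 𝔪).2 h)) ?_
  have e0 : ((((algebraMap (A2.RE P E)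
        (chart (A2.RE P E) ({(x3E E M q)⁻¹} : Set (A2.Mod.FE E (M * q * q)))) w :
          chart (A2.RE P E) ({(x3E E M q)⁻¹} : Set (A2.Mod.FE E (M * q * q)))) :
            A2.Mod.FE E (M * q * q)) ^ 1
        * (((1 : chart (A2.RE P E) ({(x3E E M q)⁻¹} : Set (A2.Mod.FE E (M * q * q)))) :
            A2.Mod.FE E (M * q * q)))
        - algebraMap (A2.RE P E) (A2.Mod.FE E (M * q * q)) w ^ 1
          * (((1 : chart (A2.RE P E) ({(x3E E M q)⁻¹} : Set (A2.Mod.FE E (M * q * q)))) :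
            A2.Mod.FE E (M * q * q))))
      * (algebraMap (A2.RE P E) (A2.Mod.FE E (M * q * q)) w ^ 1)⁻¹) = 0 := by
    have : (((algebraMap (A2.RE P E)
        (chart (A2.RE P E) ({(x3E E M q)⁻¹} : Set (A2.Mod.FE E (M * q * q)))) w :
          chart (A2.RE P E) ({(x3E E M q)⁻¹} : Set (A2.Mod.FE E (M * q * q)))) :
            A2.Mod.FE E (M * q * q)))
        = algebraMap (A2.RE P E) (A2.Mod.FE E (M * q * q)) w := rfl
    rw [this, sub_self, zero_mul]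
  rw [e0, ValuationSubring.mem_nonunits_iff, map_zero]
  exact zero_lt_one

/-! ## `LeafReg` for `q = 2`, and the final glue -/

/-- **REG for `q = 2`** (leaf-shaped). -/
def LeafReg2 : Prop :=
  Leaf fun P E M q _ _ _ _ _ _ V₁ V₂ V₃ =>
    q = 2 → PartReg (A2.RE P E) (x3E E M q) V₁ V₂ V₃

/-- **REG for `q` odd** (leaf-shaped). -/
def LeafRegOdd : Prop :=
  Leaf fun P E M q _ _ _ _ _ _ V₁ V₂ V₃ =>
    q ≠ 2 → PartReg (A2.RE P E) (x3E E M q) V₁ V₂ V₃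

/-- **REG for `q = 2`**: everything but (R-RES) comes from main and (R-U). -/
theorem leafReg2_of (hSheet : LeafSheet) (hVal : LeafVal) (hQep : LeafQep) (hInc : LeafInc)
    (hRU : H356.LeafRegU) (hRes : LeafResJ) : LeafReg2 := by
  intro P E M q _ _ _ w hStd V₁' V₂' V₁ V₂ V₃ W' W hO hq2
  refine ⟨fun 𝔪 h𝔪 hthr => Or.inr (Or.inl ?_), fun 𝔪 h𝔪 hx hthr => ?_⟩
  · exact leafRegF9_of hSheet hVal hQep hRU hRes P E M q w hStd V₁' V₂' V₁ V₂ V₃ W' W hO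
      (hStd.neat.2.2 hq2) 𝔪 h𝔪 hthr
  · exact leafRegI2_of hSheet hVal hQep hInc P E M q w hStd V₁' V₂' V₁ V₂ V₃ W' W hO hq2
      𝔪 h𝔪 hx hthr

/-- **The final glue.** -/
theorem leafReg_of_two_odd (h2 : LeafReg2) (hodd : LeafRegOdd) : LeafReg := by
  intro P E M q _ _ _ w hStd V₁' V₂' V₁ V₂ V₃ W' W hO
  by_cases hq2 : q = 2
  · exact h2 P E M q w hStd V₁' V₂' V₁ V₂ V₃ W' W hO hq2
  · exact hodd P E M q w hStd V₁' V₂' V₁ V₂ V₃ W' W hO hq2

end Fermat.Agent.S36.Mod3.H890
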